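import Fermat.Agent.S38.H841.DictMin
import Fermat.Agent.S59.TW.H653.Bdry.Adapter

/-!
# HARD / HECKE, leaf DICT-MIN (= Z5 of helper59's cut of `IAMinZeroStatement`), UNCONDITIONAL,
MAIN-ONLY imports (helper841)

BDRY is `Fermat.Agent.S59.TW.H653.Bdry.bdry_h653` (helper653, on main).

* `dictMin_h841` : a nonzero class `y ∈ Hom(Γ₀(N), 𝒪)` in the `ρ̄`-part ⟹ `ResModular 𝒪 ρ̄ N S`;
* `dictMin_eq_zero_h841` : (MIN) `¬ ResModular 𝒪 ρ̄ N S` ⟹ the `ρ̄`-part of `Hom(Γ₀(N), 𝒪)` is `0`.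
-/

set_option autoImplicit false

namespace Fermat.Agent.S38.H841

open CongruenceSubgroup Polynomial IsLocalRing
open Fermat.Agent.S29.H642
open scoped MatrixGroups

/-- **BDRY** (helper653, on main). -/
theorem bdryShape_h841 : BdryShape_h841 := Fermat.Agent.S59.TW.H653.Bdry.bdry_h653

section Final

variable (p : ℕ) [Fact p.Prime] (𝒪 : Type) [CommRing 𝒪] [IsDomain 𝒪]
  [IsDiscreteValuationRing 𝒪] [Finite (ResidueField 𝒪)] [CharZero 𝒪]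
  (ρbar : ResidualGaloisRep (ResidueField 𝒪))

/-- **DICT-MIN, unconditional.** -/
theorem dictMin_h841
    (hp2 : p ≠ 2) (hp𝒪 : (p : 𝒪) ∈ maximalIdeal 𝒪)
    (habs : ρbar.IsAbsolutelyIrreducible)
    (hsplit : ∀ σ : AlgebraicClosure ℚ ≃ₐ[ℚ] AlgebraicClosure ℚ,
      ∃ α β : ResidueField 𝒪, LinearMap.charpoly (ρbar.ρ σ) = (X - C α) * (X - C β))
    (N : ℕ) [NeZero N] (S : Finset ℕ) (hpS : p ∈ S)
    (hNS : ∀ q : ℕ, q.Prime → q ∣ N → q ∈ S)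
    (ϖ : 𝒪) (hϖ : ϖ ∈ maximalIdeal 𝒪) (c : ℕ → 𝒪)
    (hc : ∀ (l : ℕ), l.Prime → l ∉ S →
      ∀ B : ValuationSubring Fermat.Agent.S31.Qb, B.LiesOverPrime l →
        ∀ σ : Fermat.Agent.S31.GQ, B.IsFrobeniusAt σ l →
          LinearMap.charpoly (ρbar.ρ σ) =
            X ^ 2 - C (residue 𝒪 (c l)) * X + C ((l : ResidueField 𝒪)))
    (y : Additive (Gamma0 N) →+ 𝒪) (hy : y ≠ 0)
    (hnil : ∀ (l : ℕ) [Fact l.Prime] (hl : ¬ l ∣ N), l ∉ S → ∀ n : ℕ,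
      ∃ (m : ℕ) (z : Additive (Gamma0 N) →+ 𝒪),
        (fun x : Additive (Gamma0 N) →+ 𝒪 => heckeTransfer hl x - c l • x)^[m] y = ϖ ^ n • z) :
    Fermat.Agent.S59.Arch.ResModular 𝒪 ρbar N S :=
  resModular_of_class_h841 p 𝒪 ρbar bdryShape_h841 hp2 hp𝒪 habs hsplit N S hpS hNS ϖ hϖ c hc y hy
    hnil

/-- **(MIN) ⟹ the `ρ̄`-part of `Hom(Γ₀(N), 𝒪)` vanishes**, unconditional. -/
theorem dictMin_eq_zero_h841
    (hp2 : p ≠ 2) (hp𝒪 : (p : 𝒪) ∈ maximalIdeal 𝒪)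
    (habs : ρbar.IsAbsolutelyIrreducible)
    (hsplit : ∀ σ : AlgebraicClosure ℚ ≃ₐ[ℚ] AlgebraicClosure ℚ,
      ∃ α β : ResidueField 𝒪, LinearMap.charpoly (ρbar.ρ σ) = (X - C α) * (X - C β))
    (N : ℕ) [NeZero N] (S : Finset ℕ) (hpS : p ∈ S)
    (hNS : ∀ q : ℕ, q.Prime → q ∣ N → q ∈ S)
    (hmin : ¬ Fermat.Agent.S59.Arch.ResModular 𝒪 ρbar N S)
    (ϖ : 𝒪) (hϖ : ϖ ∈ maximalIdeal 𝒪) (c : ℕ → 𝒪)
    (hc : ∀ (l : ℕ), l.Prime → l ∉ S →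
      ∀ B : ValuationSubring Fermat.Agent.S31.Qb, B.LiesOverPrime l →
        ∀ σ : Fermat.Agent.S31.GQ, B.IsFrobeniusAt σ l →
          LinearMap.charpoly (ρbar.ρ σ) =
            X ^ 2 - C (residue 𝒪 (c l)) * X + C ((l : ResidueField 𝒪)))
    (y : Additive (Gamma0 N) →+ 𝒪)
    (hnil : ∀ (l : ℕ) [Fact l.Prime] (hl : ¬ l ∣ N), l ∉ S → ∀ n : ℕ,
      ∃ (m : ℕ) (z : Additive (Gamma0 N) →+ 𝒪),
        (fun x : Additive (Gamma0 N) →+ 𝒪 => heckeTransfer hl x - c l • x)^[m] y = ϖ ^ n • z) :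
    y = 0 :=
  eq_zero_of_not_resModular_h841 p 𝒪 ρbar bdryShape_h841 hp2 hp𝒪 habs hsplit N S hpS hNS hmin ϖ
    hϖ c hc y hnil

end Final

end Fermat.Agent.S38.H841
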