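import Fermat.Agent.S38.H841.DictMinPart
import Fermat.Agent.S38.H841.DictMinMain

/-!
# HARD / HECKE, leaf DICT-MIN, UNCONDITIONAL, in the vocabulary of CTRL-MIN (helper841)

* `dictMin_isPart_h841` : (MIN) `¬ ResModular 𝒪 ρ̄ N S` ⟹ the hypothesis `hmin` of
  `H719.eH_eq_zero_of_min` / `eq_zero_of_isPart_chain` (= `hBetti` of helper59's cut Z2).

Imports `S38/H719/CtrlMin.lean` (off-main, `origin/helper719`); everything else is on main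
(`DictMinMain.lean`: `dictMin_h841`, `dictMin_eq_zero_h841`, BDRY = `H653.Bdry.bdry_h653`).
-/

set_option autoImplicit false

namespace Fermat.Agent.S38.H841

open CongruenceSubgroup Polynomial IsLocalRing
open Fermat.Agent.S29.H642 Fermat.Agent.S59.H105 Fermat.Agent.S38.H719
open scoped MatrixGroups

section FinalPart

variable (p : ℕ) [Fact p.Prime] (𝒪 : Type) [CommRing 𝒪] [IsDomain 𝒪]
  [IsDiscreteValuationRing 𝒪] [Finite (ResidueField 𝒪)] [CharZero 𝒪]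
  (ρbar : ResidualGaloisRep (ResidueField 𝒪))

/-- **(MIN) ⟹ `hmin` of `H719.eH_eq_zero_of_min`**, unconditional. -/
theorem dictMin_isPart_h841
    (hp2 : p ≠ 2) (hp𝒪 : (p : 𝒪) ∈ maximalIdeal 𝒪)
    (habs : ρbar.IsAbsolutelyIrreducible)
    (hsplit : ∀ σ : AlgebraicClosure ℚ ≃ₐ[ℚ] AlgebraicClosure ℚ,
      ∃ α β : ResidueField 𝒪, LinearMap.charpoly (ρbar.ρ σ) = (X - C α) * (X - C β))
    (N : ℕ) [NeZero N] (S : Finset ℕ) (hpS : p ∈ S)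
    (hNS : ∀ q : ℕ, q.Prime → q ∣ N → q ∈ S)
    (hmin : ¬ Fermat.Agent.S59.Arch.ResModular 𝒪 ρbar N S)
    (ϖ : 𝒪) (hϖ : ϖ ∈ maximalIdeal 𝒪) (c : ℕ → 𝒪)
    (hc : ∀ (l : ℕ), l.Prime → l ∉ S →
      ∀ B : ValuationSubring Fermat.Agent.S31.Qb, B.LiesOverPrime l →
        ∀ σ : Fermat.Agent.S31.GQ, B.IsFrobeniusAt σ l →
          LinearMap.charpoly (ρbar.ρ σ) =
            X ^ 2 - C (residue 𝒪 (c l)) * X + C ((l : ResidueField 𝒪)))
    (Ipr : Set ℕ) (hI : ∀ l : ℕ, l.Prime → l ∉ S → l ∈ Ipr) (α : ℕ → 𝒪) :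
    ∀ y : Additive (Gamma0 N) →+ 𝒪, IsPart 𝒪 𝒪 ϖ Ipr c ∅ α N y → y = 0 :=
  isPart_eq_zero_of_not_resModular_h841 p 𝒪 ρbar bdryShape_h841 hp2 hp𝒪 habs hsplit N S hpS hNS
    hmin ϖ hϖ c hc Ipr hI α

end FinalPart

end Fermat.Agent.S38.H841
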