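import Fermat.Agent.S38.H841.DictMinAlg
import Fermat.Agent.S59.NM.H709.Action
import Fermat.Agent.S59.H424.NEPrimeK
import Fermat.Agent.S59.Arch.SpecRT

/-!
# HARD / HECKE, leaf DICT-MIN (helper841): a Betti class in the `ρ̄`-part ⟹ `ρ̄` is modular

`𝒪` a complete DVR of characteristic `0` with finite residue field `k` of odd characteristic `p`,
`ρ̄ : G_ℚ → GL₂(k)` absolutely irreducible, `N ≥ 1`, `S` a finite set of primes containing `p` and
the primes dividing `N`, `c ℓ ∈ 𝒪` lifts of the Frobenius traces of `ρ̄` (`ℓ ∉ S`), `ϖ ∈ 𝔪_𝒪`.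

`resModular_of_class_h841` : if some `y ≠ 0` in `Hom(Γ₀(N), 𝒪)` lies in the generalized eigen-part
"`T_ℓ ≡ c ℓ`" (every `T_ℓ - c ℓ`, `ℓ ∉ S`, is topologically nilpotent at `y`), then
`S59.Arch.ResModular 𝒪 ρ̄ N S`: there is a character `θ` of the anemic Hecke algebra of level `N`
with values in `k` and `θ(T_ℓ) = tr ρ̄(Frob_ℓ)`.

Contrapositive (`eq_zero_of_not_resModular_h841`) = the hypothesis (MIN) in the form used by the
control theorems: if `ρ̄` is NOT modular of level `N`, the `ρ̄`-part of `Hom(Γ₀(N), 𝒪)` is zero.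

The only input which is not on main is BDRY (`BdryShape_h841`, verbatim the `BdryStatement` of
helper59's `S38/H59/TWMinSpec.lean`), taken as a hypothesis.

Proof.  (i) `nePrimeK_h424` gives `ℓ₀ ∉ S`, `ℓ₀ ≡ 1 mod N`, `ℓ₀ ≠ 2` with `c ℓ₀ ≢ ℓ₀ + 1`; by BDRY,
`T_ℓ₀ - c ℓ₀` acts on the values at parabolic elements as the unit `ℓ₀ + 1 - c ℓ₀`, so `y` is
parabolic.  (ii) Eichler–Shimura (`S59.NM.H709.ofCls`): `y` comes from `u ∈ W = Hom(Λ, 𝒪)`, `Λ` the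
period lattice; write `u = π ^ n • u₀` with `u₀ ≢ 0 mod π`; the reduction `e₀` of `u₀` is a nonzero
element of `Hom(Λ, k)` at which every `T_ℓ - c̄ ℓ` is nilpotent.  (iii) the abstract character
lemma `exists_character_of_locNil_h841`.
-/

set_option autoImplicit false

noncomputable section

namespace Fermat.Agent.S38.H841

open CongruenceSubgroup ModularCurve ModularCurve.Period CuspForm Polynomial IsLocalRing
open Fermat.Agent.S29.H642 Fermat.Agent.S59.NM.H709 Fermat.Agent.S30.H709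
open scoped MatrixGroups

/-- **BDRY** (verbatim `Fermat.Agent.S38.H59.BdryStatement`): the boundary is Eisenstein. -/
def BdryShape_h841 : Prop :=
  ∀ (M ℓ : ℕ) [Fact ℓ.Prime] (hℓ : ¬ ℓ ∣ M), M ≠ 0 → ℓ ≠ 2 → ℓ ≡ 1 [MOD M] →
    ∀ (A : Type) [AddCommGroup A] (φ : Additive (Gamma0 M) →+ A) (γ : Gamma0 M),
      ((γ : SL(2, ℤ)) : Matrix (Fin 2) (Fin 2) ℤ).trace ^ 2 = 4 →
      heckeTransfer hℓ φ (Additive.ofMul γ) = (ℓ + 1) • φ (Additive.ofMul γ)

section Parabolic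

variable {O : Type} [CommRing O] {N ℓ : ℕ} [Fact ℓ.Prime]

/-- On parabolic elements the shifted transfer `T_ℓ - c` is multiplication by `ℓ + 1 - c`. -/
theorem iterate_shift_apply_h841 (hB : BdryShape_h841) (hl : ¬ ℓ ∣ N) (hN : N ≠ 0) (hl2 : ℓ ≠ 2)
    (h1 : ℓ ≡ 1 [MOD N]) (c : O) (γ : Gamma0 N)
    (hγ : ((γ : SL(2, ℤ)) : Matrix (Fin 2) (Fin 2) ℤ).trace ^ 2 = 4) (m : ℕ) :
    ∀ x : Additive (Gamma0 N) →+ O,
      ((fun x : Additive (Gamma0 N) →+ O => heckeTransfer hl x - c • x)^[m] x)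
        (Additive.ofMul γ) = ((ℓ : O) + 1 - c) ^ m * x (Additive.ofMul γ) := by
  induction m with
  | zero =>
    intro x
    rw [Function.iterate_zero_apply, pow_zero, one_mul]
  | succ m ih =>
    intro x
    rw [Function.iterate_succ_apply, ih]
    show ((ℓ : O) + 1 - c) ^ m *
      (heckeTransfer hl x (Additive.ofMul γ) - c • x (Additive.ofMul γ)) = _
    rw [hB N ℓ hl hN hl2 h1 O x γ hγ, nsmul_eq_mul, smul_eq_mul, pow_succ]
    push_cast
    ring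

/-- **(i)** A class at which `T_ℓ - c` is topologically nilpotent, `ℓ ≡ 1 mod N`, `ℓ + 1 - c` a
unit, is parabolic. -/
theorem isParabolic_of_topNil_h841 (hB : BdryShape_h841) (hl : ¬ ℓ ∣ N) (hN : N ≠ 0)
    (hl2 : ℓ ≠ 2) (h1 : ℓ ≡ 1 [MOD N]) (c : O) (hu : IsUnit ((ℓ : O) + 1 - c)) (ϖ : O)
    (hsep : ∀ a : O, (∀ n : ℕ, ϖ ^ n ∣ a) → a = 0)
    (y : Additive (Gamma0 N) →+ O)
    (hnil : ∀ n : ℕ, ∃ (m : ℕ) (z : Additive (Gamma0 N) →+ O),
      (fun x : Additive (Gamma0 N) →+ O => heckeTransfer hl x - c • x)^[m] y = ϖ ^ n • z) :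
    IsParabolicHom (Gamma0 N) y := by
  intro γ hγ
  apply hsep
  intro n
  obtain ⟨m, z, hz⟩ := hnil n
  have h2 := iterate_shift_apply_h841 hB hl hN hl2 h1 c γ hγ m y
  rw [hz] at h2
  have h3 : ϖ ^ n ∣ ((ℓ : O) + 1 - c) ^ m * y (Additive.ofMul γ) :=
    ⟨z (Additive.ofMul γ), h2.symm⟩
  exact ((hu.pow m).dvd_mul_left).1 h3

end Parabolic

section Lattice

variable {N : ℕ} [NeZero N] {S : Set ℕ}

/-- Reduction modulo the maximal ideal of functionals on the period lattice. -/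
def red_h841 (O : Type) [CommRing O] [IsLocalRing O] (w : perLattice N →+ O) :
    perLattice N →+ ResidueField O :=
  (residue O).toAddMonoidHom.comp w

variable (O : Type) [CommRing O]

theorem red_apply_h841 [IsLocalRing O] (w : perLattice N →+ O) (x : perLattice N) :
    red_h841 O w x = residue O (w x) := rfl

/-- The shifted Hecke operator `T - c` on `W = Hom(Λ, O)`. -/
def shiftW_h841 (hNS : ∀ q : ℕ, q.Prime → q ∣ N → q ∈ S) (t : heckeAlgebra N 2 S) (c : O) :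
    Module.End O (perLattice N →+ O) :=
  actHom O hNS t - c • (1 : Module.End O (perLattice N →+ O))

theorem shiftW_apply_h841 (hNS : ∀ q : ℕ, q.Prime → q ∣ N → q ∈ S) (t : heckeAlgebra N 2 S)
    (c : O) (w : perLattice N →+ O) (x : perLattice N) :
    shiftW_h841 O hNS t c w x = w (rhoL hNS t x) - c * w x := rfl

theorem red_shiftW_h841 [IsLocalRing O] (hNS : ∀ q : ℕ, q.Prime → q ∣ N → q ∈ S)
    (t : heckeAlgebra N 2 S) (c : O) (w : perLattice N →+ O) :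
    red_h841 O (shiftW_h841 O hNS t c w) =
      shiftW_h841 (ResidueField O) hNS t (residue O c) (red_h841 O w) := by
  refine AddMonoidHom.ext fun x => ?_
  rw [red_apply_h841, shiftW_apply_h841, shiftW_apply_h841, red_apply_h841, red_apply_h841,
    map_sub, map_mul]

theorem red_shiftW_pow_h841 [IsLocalRing O] (hNS : ∀ q : ℕ, q.Prime → q ∣ N → q ∈ S)
    (t : heckeAlgebra N 2 S) (c : O) (m : ℕ) :
    ∀ w : perLattice N →+ O, red_h841 O ((shiftW_h841 O hNS t c ^ m) w) =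
      (shiftW_h841 (ResidueField O) hNS t (residue O c) ^ m) (red_h841 O w) := by
  induction m with
  | zero =>
    intro w
    rw [pow_zero, pow_zero, Module.End.one_apply, Module.End.one_apply]
  | succ m ih =>
    intro w
    rw [pow_succ, pow_succ, Module.End.mul_apply, Module.End.mul_apply, ih, red_shiftW_h841]

theorem toCls_shiftW_h841 (hNS : ∀ q : ℕ, q.Prime → q ∣ N → q ∈ S) {l : ℕ} [Fact l.Prime]
    (hlN : ¬ l ∣ N) (hlS : l ∉ S) (c : O) (w : perLattice N →+ O) :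
    toCls (shiftW_h841 O hNS (heckeAlgebra.T Fact.out hlN hlS) c w) =
      heckeTransfer hlN (toCls w) - c • toCls w := by
  rw [← toCls_actHom_T O hNS hlN hlS w]
  rfl

theorem toCls_shiftW_pow_h841 (hNS : ∀ q : ℕ, q.Prime → q ∣ N → q ∈ S) {l : ℕ} [Fact l.Prime]
    (hlN : ¬ l ∣ N) (hlS : l ∉ S) (c : O) (m : ℕ) :
    ∀ w : perLattice N →+ O,
      toCls ((shiftW_h841 O hNS (heckeAlgebra.T Fact.out hlN hlS) c ^ m) w) =
        (fun x : Additive (Gamma0 N) →+ O => heckeTransfer hlN x - c • x)^[m] (toCls w) := by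
  induction m with
  | zero =>
    intro w
    rw [pow_zero, Module.End.one_apply, Function.iterate_zero_apply]
  | succ m ih =>
    intro w
    rw [pow_succ, Module.End.mul_apply, ih, Function.iterate_succ_apply, toCls_shiftW_h841]

/-- The anemic Hecke algebra is generated as a ring by the `T_ℓ`, `ℓ ∉ S`, when `S` contains the
primes dividing `N`. -/
theorem mem_closure_T_h841 (hNS : ∀ q : ℕ, q.Prime → q ∣ N → q ∈ S)
    (x : heckeAlgebra N 2 S) :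
    x ∈ Subring.closure (Set.range fun i : {l : ℕ // l.Prime ∧ l ∉ S} =>
      (heckeAlgebra.T i.2.1 (fun h => i.2.2 (hNS i.1 i.2.1 h)) i.2.2 : heckeAlgebra N 2 S)) := by
  obtain ⟨x, hx⟩ := x
  induction hx using Algebra.adjoin_induction with
  | mem t ht =>
    rcases ht with ⟨l, hl, hlN, hlS, rfl⟩ | ⟨q, hqN, hq, hqS, rfl⟩
    · exact Subring.subset_closure ⟨⟨l, hl, hlS⟩, rfl⟩
    · exact absurd (hNS q hq hqN) hqS
  | algebraMap n =>
    have h1 : (⟨algebraMap ℤ (Module.End ℂ (CuspForm (Gamma0 N) 2)) n,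
        Subalgebra.algebraMap_mem _ n⟩ : heckeAlgebra N 2 S) = ((n : ℤ) : heckeAlgebra N 2 S) := by
      apply Subtype.ext
      show algebraMap ℤ (Module.End ℂ (CuspForm (Gamma0 N) 2)) n = _
      rw [eq_intCast]
      rfl
    rw [h1]
    exact intCast_mem _ n
  | add t s ht hs iht ihs =>
    have h1 : (⟨t + s, Subalgebra.add_mem _ ht hs⟩ : heckeAlgebra N 2 S) = ⟨t, ht⟩ + ⟨s, hs⟩ := rfl
    rw [h1]
    exact Subring.add_mem _ iht ihs
  | mul t s ht hs iht ihs =>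
    have h1 : (⟨t * s, Subalgebra.mul_mem _ ht hs⟩ : heckeAlgebra N 2 S) = ⟨t, ht⟩ * ⟨s, hs⟩ := rfl
    rw [h1]
    exact Subring.mul_mem _ iht ihs

end Lattice

section Main

variable (p : ℕ) [Fact p.Prime] (𝒪 : Type) [CommRing 𝒪] [IsDomain 𝒪]
  [IsDiscreteValuationRing 𝒪]

theorem charP_residueField_h841 (hp𝒪 : (p : 𝒪) ∈ maximalIdeal 𝒪) :
    CharP (ResidueField 𝒪) p := by
  have hpk : ((p : ℕ) : ResidueField 𝒪) = 0 := by
    have h := (residue_eq_zero_iff (p : 𝒪)).2 hp𝒪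
    rwa [map_natCast] at h
  obtain ⟨r, hr⟩ := CharP.exists (ResidueField 𝒪)
  have hdvd : r ∣ p := (CharP.cast_eq_zero_iff (ResidueField 𝒪) r p).1 hpk
  rcases (Nat.dvd_prime (Fact.out : p.Prime)).1 hdvd with h1 | h1
  · exact absurd h1 (CharP.char_ne_one (ResidueField 𝒪) r)
  · rw [← h1]
    exact hr

variable [Finite (ResidueField 𝒪)] [CharZero 𝒪] (ρbar : ResidualGaloisRep (ResidueField 𝒪))

/-- **DICT-MIN.**  A nonzero class `y ∈ Hom(Γ₀(N), 𝒪)` in the generalized eigen-part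
"`T_ℓ ≡ c ℓ` for `ℓ ∉ S`" of an absolutely irreducible `ρ̄` (`c ℓ` lifts of the Frobenius traces)
forces `ρ̄` to be modular of level `N`. -/
theorem resModular_of_class_h841 (hB : BdryShape_h841)
    (hp2 : p ≠ 2) (hp𝒪 : (p : 𝒪) ∈ maximalIdeal 𝒪)
    (habs : ρbar.IsAbsolutelyIrreducible)
    (hsplit : ∀ σ : AlgebraicClosure ℚ ≃ₐ[ℚ] AlgebraicClosure ℚ,
      ∃ α β : ResidueField 𝒪, LinearMap.charpoly (ρbar.ρ σ) = (X - C α) * (X - C β))
    (N : ℕ) [NeZero N] (S : Finset ℕ) (hpS : p ∈ S)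
    (hNS : ∀ q : ℕ, q.Prime → q ∣ N → q ∈ S)
    (ϖ : 𝒪) (hϖ : ϖ ∈ maximalIdeal 𝒪) (c : ℕ → 𝒪)
    (hc : ∀ (l : ℕ), l.Prime → l ∉ S →
      ∀ B : ValuationSubring Fermat.Agent.S31.Qb, B.LiesOverPrime l →
        ∀ σ : Fermat.Agent.S31.GQ, B.IsFrobeniusAt σ l →
          LinearMap.charpoly (ρbar.ρ σ) =
            X ^ 2 - C (residue 𝒪 (c l)) * X + C ((l : ResidueField 𝒪)))
    (y : Additive (Gamma0 N) →+ 𝒪) (hy : y ≠ 0)
    (hnil : ∀ (l : ℕ) [Fact l.Prime] (hl : ¬ l ∣ N), l ∉ S → ∀ n : ℕ,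
      ∃ (m : ℕ) (z : Additive (Gamma0 N) →+ 𝒪),
        (fun x : Additive (Gamma0 N) →+ 𝒪 => heckeTransfer hl x - c l • x)^[m] y = ϖ ^ n • z) :
    Fermat.Agent.S59.Arch.ResModular 𝒪 ρbar N S := by
  classical
  have hp : p.Prime := Fact.out
  have : CharP (ResidueField 𝒪) p := charP_residueField_h841 p 𝒪 hp𝒪
  have hN : N ≠ 0 := NeZero.ne N
  -- a uniformizer
  obtain ⟨π, hπ⟩ := IsDiscreteValuationRing.exists_irreducible 𝒪
  have hπmax : maximalIdeal 𝒪 = Ideal.span {π} := hπ.maximalIdeal_eq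
  have hπ0 : π ≠ 0 := hπ.ne_zero
  have hπmem : π ∈ maximalIdeal 𝒪 := by
    rw [hπmax]
    exact Ideal.mem_span_singleton_self π
  obtain ⟨w, hw⟩ : ∃ w, w * π = ϖ := Ideal.mem_span_singleton'.1 (hπmax ▸ hϖ)
  have hsepϖ : ∀ a : 𝒪, (∀ n : ℕ, ϖ ^ n ∣ a) → a = 0 := eq_zero_of_forall_pow_dvd_h841 hϖ
  have hsepπ : ∀ a : 𝒪, (∀ n : ℕ, π ^ n ∣ a) → a = 0 := eq_zero_of_forall_pow_dvd_h841 hπmem
  -- (i) a non-Eisenstein prime `l₀ ≡ 1 mod N`
  obtain ⟨l₀, hl₀, hl₀S, hl₀S', hl₀N, -, hne, -⟩ :=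
    Fermat.Agent.S59.H424.nePrimeK_h424 p hp2 (ResidueField 𝒪) ρbar habs hsplit S hpS
      (fun l => residue 𝒪 (c l)) hc 2 Nat.prime_two hp2.symm N (Nat.pos_of_ne_zero hN) {2}
  have : Fact l₀.Prime := ⟨hl₀⟩
  have hl₀2 : l₀ ≠ 2 := fun h => hl₀S' (by rw [h]; exact Finset.mem_singleton_self 2)
  have hl₀N' : ¬ l₀ ∣ N := fun h => hl₀S (hNS l₀ hl₀ h)
  have hunit : IsUnit ((l₀ : 𝒪) + 1 - c l₀) := by
    by_contra hnu
    have hmem : (l₀ : 𝒪) + 1 - c l₀ ∈ maximalIdeal 𝒪 := (mem_maximalIdeal _).2 hnu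
    have h1 := (residue_eq_zero_iff _).2 hmem
    rw [map_sub, map_add, map_natCast, map_one, sub_eq_zero] at h1
    exact hne h1.symm
  have hpar : IsParabolicHom (Gamma0 N) y :=
    isParabolic_of_topNil_h841 hB hl₀N' hN hl₀2 hl₀N (c l₀) hunit ϖ hsepϖ y
      (hnil l₀ hl₀N' hl₀S)
  -- (ii) the class on the period lattice and its primitive part
  have hNS' : ∀ q : ℕ, q.Prime → q ∣ N → q ∈ (↑S : Set ℕ) :=
    fun q hq hqN => Finset.mem_coe.2 (hNS q hq hqN)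
  obtain ⟨u, hu⟩ : ∃ u : perLattice N →+ 𝒪, toCls u = y := ⟨ofCls y hpar, toCls_ofCls y hpar⟩
  have hu0 : u ≠ 0 := by
    intro h
    rw [h, toCls_zero] at hu
    exact hy hu.symm
  obtain ⟨n₀, u₀, hn₀, x₁, hx₁⟩ := exists_primitive_h841 hπ0 hsepπ u hu0
  have he₀ : red_h841 𝒪 u₀ ≠ 0 := by
    intro h
    have h1 : residue 𝒪 (u₀ x₁) = 0 := by
      rw [← red_apply_h841, h]
      rfl
    rw [residue_eq_zero_iff, hπmax, Ideal.mem_span_singleton] at h1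
    exact hx₁ h1
  -- nilpotency of the `T_ℓ - c̄ ℓ` at `e₀`
  have hnil' : ∀ i : {l : ℕ // l.Prime ∧ l ∉ (↑S : Set ℕ)}, ∃ m : ℕ,
      ((actHom (ResidueField 𝒪) hNS'
          (heckeAlgebra.T i.2.1 (fun h => i.2.2 (hNS' i.1 i.2.1 h)) i.2.2) -
        residue 𝒪 (c i.1) •
          (1 : Module.End (ResidueField 𝒪) (perLattice N →+ ResidueField 𝒪))) ^ m)
        (red_h841 𝒪 u₀) = 0 := by
    rintro ⟨l, hl, hlS⟩
    have : Fact l.Prime := ⟨hl⟩
    have hlN : ¬ l ∣ N := fun h => hlS (hNS' l hl h)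
    obtain ⟨m, z, hz⟩ := hnil l hlN (fun h => hlS (Finset.mem_coe.2 h)) (n₀ + 1)
    refine ⟨m, ?_⟩
    have h1 : toCls ((shiftW_h841 𝒪 hNS' (heckeAlgebra.T Fact.out hlN hlS) (c l) ^ m) u) =
        ϖ ^ (n₀ + 1) • z := by
      rw [toCls_shiftW_pow_h841, hu, hz]
    have h2 : ∀ x : perLattice N,
        π ∣ ((shiftW_h841 𝒪 hNS' (heckeAlgebra.T Fact.out hlN hlS) (c l) ^ m) u₀) x := by
      intro x
      obtain ⟨γ, rfl⟩ := perClsHom_surjective x
      have h3 := DFunLike.congr_fun h1 γ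
      rw [hn₀, map_smul] at h3
      have h4 : π ^ n₀ *
          ((shiftW_h841 𝒪 hNS' (heckeAlgebra.T Fact.out hlN hlS) (c l) ^ m) u₀)
            (perClsHom N γ) = ϖ ^ (n₀ + 1) * z γ := h3
      rw [← hw, mul_pow, pow_succ] at h4
      have h5 : π ^ n₀ *
          ((shiftW_h841 𝒪 hNS' (heckeAlgebra.T Fact.out hlN hlS) (c l) ^ m) u₀)
            (perClsHom N γ) = π ^ n₀ * (π * (w ^ (n₀ + 1) * z γ)) := by
        rw [h4]
        ring
      exact ⟨_, mul_left_cancel₀ (pow_ne_zero n₀ hπ0) h5⟩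
    have h6 : red_h841 𝒪
        ((shiftW_h841 𝒪 hNS' (heckeAlgebra.T Fact.out hlN hlS) (c l) ^ m) u₀) = 0 := by
      refine AddMonoidHom.ext fun x => ?_
      rw [red_apply_h841, AddMonoidHom.zero_apply, residue_eq_zero_iff, hπmax,
        Ideal.mem_span_singleton]
      exact h2 x
    rw [red_shiftW_pow_h841] at h6
    exact h6
  -- (iii) the character
  obtain ⟨θ, hθ⟩ := exists_character_of_locNil_h841 (actHom (ResidueField 𝒪) hNS')
    (fun i : {l : ℕ // l.Prime ∧ l ∉ (↑S : Set ℕ)} =>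
      (heckeAlgebra.T i.2.1 (fun h => i.2.2 (hNS' i.1 i.2.1 h)) i.2.2 :
        heckeAlgebra N 2 (↑S : Set ℕ)))
    (fun i => residue 𝒪 (c i.1)) (mem_closure_T_h841 hNS') (red_h841 𝒪 u₀) he₀ hnil'
  refine ⟨inferInstance, θ, ?_⟩
  intro l hl hlN hlS B hB' σ hσ
  have h7 : θ (heckeAlgebra.T hl hlN hlS) = residue 𝒪 (c l) := hθ ⟨l, hl, hlS⟩
  rw [h7]
  exact hc l hl (fun h => hlS (Finset.mem_coe.2 h)) B hB' σ hσ

/-- **DICT-MIN, contrapositive = (MIN) in the form used by the control theorems.**  If `ρ̄` is not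
modular of level `N`, the `ρ̄`-part of `Hom(Γ₀(N), 𝒪)` vanishes. -/
theorem eq_zero_of_not_resModular_h841 (hB : BdryShape_h841)
    (hp2 : p ≠ 2) (hp𝒪 : (p : 𝒪) ∈ maximalIdeal 𝒪)
    (habs : ρbar.IsAbsolutelyIrreducible)
    (hsplit : ∀ σ : AlgebraicClosure ℚ ≃ₐ[ℚ] AlgebraicClosure ℚ,
      ∃ α β : ResidueField 𝒪, LinearMap.charpoly (ρbar.ρ σ) = (X - C α) * (X - C β))
    (N : ℕ) [NeZero N] (S : Finset ℕ) (hpS : p ∈ S)
    (hNS : ∀ q : ℕ, q.Prime → q ∣ N → q ∈ S)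
    (hmin : ¬ Fermat.Agent.S59.Arch.ResModular 𝒪 ρbar N S)
    (ϖ : 𝒪) (hϖ : ϖ ∈ maximalIdeal 𝒪) (c : ℕ → 𝒪)
    (hc : ∀ (l : ℕ), l.Prime → l ∉ S →
      ∀ B : ValuationSubring Fermat.Agent.S31.Qb, B.LiesOverPrime l →
        ∀ σ : Fermat.Agent.S31.GQ, B.IsFrobeniusAt σ l →
          LinearMap.charpoly (ρbar.ρ σ) =
            X ^ 2 - C (residue 𝒪 (c l)) * X + C ((l : ResidueField 𝒪)))
    (y : Additive (Gamma0 N) →+ 𝒪)
    (hnil : ∀ (l : ℕ) [Fact l.Prime] (hl : ¬ l ∣ N), l ∉ S → ∀ n : ℕ,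
      ∃ (m : ℕ) (z : Additive (Gamma0 N) →+ 𝒪),
        (fun x : Additive (Gamma0 N) →+ 𝒪 => heckeTransfer hl x - c l • x)^[m] y = ϖ ^ n • z) :
    y = 0 := by
  by_contra hy
  exact hmin (resModular_of_class_h841 p 𝒪 ρbar hB hp2 hp𝒪 habs hsplit N S hpS hNS ϖ hϖ c hc y hy
    hnil)

end Main

end Fermat.Agent.S38.H841
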