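import Mathlib

/-!
# HARD / HECKE, leaf DICT-MIN, part 1 (helper841): the abstract character lemma (Mathlib only)

`k` a field, `E` a `k`-vector space (NO finiteness), `T` a commutative ring acting on `E` by
`Φ : T →+* End_k E`, `T` generated as a ring by elements `t i`, and `e₀ ≠ 0` in `E` such that every
`Φ (t i) - c i` is nilpotent at `e₀`.  Then there is a character `θ : T →+* k` with
`θ (t i) = c i` (`exists_character_of_locNil_h841`).

Proof: in the commutative `k`-algebra `𝔸 ⊆ End_k E` generated by `Φ T`, the annihilator of `e₀` is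
a proper ideal, hence contained in a maximal ideal `𝔐`, which contains every element nilpotent at
`e₀`.  The residue field `𝔸 ⧸ 𝔐` is generated over `k` by the images of the `Φ (t i)`, which are
the scalars `c i`; so `T → 𝔸 ⧸ 𝔐` takes its values in `k`.
-/

set_option autoImplicit false

namespace Fermat.Agent.S38.H841

section MaxIdeal

variable {k : Type*} [Field k] {B : Type*} [CommRing B]
  {E : Type*} [AddCommGroup E] [Module k E]

/-- The annihilator of a vector, for an action of a commutative ring by endomorphisms. -/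
def annVec_h841 (Ψ : B →+* Module.End k E) (e₀ : E) : Ideal B where
  carrier := {b | Ψ b e₀ = 0}
  zero_mem' := by
    show Ψ 0 e₀ = 0
    rw [map_zero, LinearMap.zero_apply]
  add_mem' := by
    intro a b ha hb
    show Ψ (a + b) e₀ = 0
    rw [map_add, LinearMap.add_apply, ha, hb, add_zero]
  smul_mem' := by
    intro r a ha
    show Ψ (r • a) e₀ = 0
    rw [smul_eq_mul, map_mul, Module.End.mul_apply, ha, map_zero]

theorem mem_annVec_h841 (Ψ : B →+* Module.End k E) (e₀ : E) (b : B) :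
    b ∈ annVec_h841 Ψ e₀ ↔ Ψ b e₀ = 0 := Iff.rfl

/-- A maximal ideal containing every element which is nilpotent at `e₀ ≠ 0`. -/
theorem exists_maximal_of_locNil_h841 (Ψ : B →+* Module.End k E) (e₀ : E) (he₀ : e₀ ≠ 0) :
    ∃ 𝔐 : Ideal B, 𝔐.IsMaximal ∧ ∀ b : B, (∃ m : ℕ, (Ψ b ^ m) e₀ = 0) → b ∈ 𝔐 := by
  have hne : annVec_h841 Ψ e₀ ≠ ⊤ := by
    intro h
    have h1 : (1 : B) ∈ annVec_h841 Ψ e₀ := by
      rw [h]
      exact Submodule.mem_top
    rw [mem_annVec_h841, map_one, Module.End.one_apply] at h1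
    exact he₀ h1
  obtain ⟨𝔐, h𝔐, hle⟩ := Ideal.exists_le_maximal _ hne
  refine ⟨𝔐, h𝔐, fun b ⟨m, hm⟩ => ?_⟩
  have h2 : b ^ m ∈ 𝔐 := by
    apply hle
    rw [mem_annVec_h841, map_pow]
    exact hm
  exact h𝔐.isPrime.mem_of_pow_mem m h2

end MaxIdeal

section Character

variable {k : Type*} [Field k] {E : Type*} [AddCommGroup E] [Module k E]
  {T : Type*} [CommRing T]

/-- **The abstract character lemma.**  If `T` is generated by the `t i` and `Φ (t i) - c i` is
nilpotent at `e₀ ≠ 0` for every `i`, then there is a character `θ : T →+* k` with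
`θ (t i) = c i`. -/
theorem exists_character_of_locNil_h841 (Φ : T →+* Module.End k E)
    {ι : Type*} (t : ι → T) (c : ι → k)
    (hgen : ∀ x : T, x ∈ Subring.closure (Set.range t))
    (e₀ : E) (he₀ : e₀ ≠ 0)
    (hnil : ∀ i, ∃ m : ℕ, ((Φ (t i) - c i • (1 : Module.End k E)) ^ m) e₀ = 0) :
    ∃ θ : T →+* k, ∀ i, θ (t i) = c i := by
  classical
  -- the commutative algebra generated by the image
  have hcomm : ∀ a ∈ Set.range Φ, ∀ b ∈ Set.range Φ, a * b = b * a := by
    rintro _ ⟨a, rfl⟩ _ ⟨b, rfl⟩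
    rw [← map_mul, ← map_mul, mul_comm]
  have : IsMulCommutative (Algebra.adjoin k (Set.range Φ)) :=
    Algebra.isMulCommutative_adjoin k hcomm
  let _ : CommRing (Algebra.adjoin k (Set.range Φ)) :=
    { (inferInstance : Ring (Algebra.adjoin k (Set.range Φ))) with
      mul_comm := fun a b => IsMulCommutative.is_comm.comm a b }
  let Ψ : Algebra.adjoin k (Set.range Φ) →+* Module.End k E :=
    (Algebra.adjoin k (Set.range Φ)).val.toRingHom
  have hΨ : ∀ b : Algebra.adjoin k (Set.range Φ), Ψ b = (b : Module.End k E) := fun _ => rfl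
  let Φ' : T →+* Algebra.adjoin k (Set.range Φ) :=
    Φ.codRestrict (Algebra.adjoin k (Set.range Φ)) (fun x => Algebra.subset_adjoin ⟨x, rfl⟩)
  have hΦ' : ∀ x : T, ((Φ' x : Algebra.adjoin k (Set.range Φ)) : Module.End k E) = Φ x :=
    fun _ => rfl
  obtain ⟨𝔐, h𝔐, hmem⟩ := exists_maximal_of_locNil_h841 Ψ e₀ he₀
  have := h𝔐
  let _ : Field (Algebra.adjoin k (Set.range Φ) ⧸ 𝔐) := Ideal.Quotient.field 𝔐
  let ι' : k →+* (Algebra.adjoin k (Set.range Φ) ⧸ 𝔐) :=
    (Ideal.Quotient.mk 𝔐).comp (algebraMap k (Algebra.adjoin k (Set.range Φ)))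
  have hι' : Function.Injective ι' := ι'.injective
  let θ' : T →+* (Algebra.adjoin k (Set.range Φ) ⧸ 𝔐) := (Ideal.Quotient.mk 𝔐).comp Φ'
  have hθ' : ∀ i, θ' (t i) = ι' (c i) := by
    intro i
    show Ideal.Quotient.mk 𝔐 (Φ' (t i)) =
      Ideal.Quotient.mk 𝔐 (algebraMap k (Algebra.adjoin k (Set.range Φ)) (c i))
    rw [Ideal.Quotient.eq]
    apply hmem
    obtain ⟨m, hm⟩ := hnil i
    refine ⟨m, ?_⟩
    have h1 : Ψ (Φ' (t i) - algebraMap k (Algebra.adjoin k (Set.range Φ)) (c i)) =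
        Φ (t i) - c i • (1 : Module.End k E) := by
      rw [hΨ, Subalgebra.coe_sub, hΦ', Subalgebra.coe_algebraMap, Algebra.algebraMap_eq_smul_one]
    rw [h1]
    exact hm
  have hrange : ∀ x : T, θ' x ∈ ι'.range := by
    intro x
    have hx := hgen x
    induction hx using Subring.closure_induction with
    | mem y hy =>
      obtain ⟨i, rfl⟩ := hy
      exact ⟨c i, (hθ' i).symm⟩
    | zero => rw [map_zero]; exact Subring.zero_mem _
    | one => rw [map_one]; exact Subring.one_mem _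
    | add a b _ _ ha hb => rw [map_add]; exact Subring.add_mem _ ha hb
    | neg a _ ha => rw [map_neg]; exact Subring.neg_mem _ ha
    | mul a b _ _ ha hb => rw [map_mul]; exact Subring.mul_mem _ ha hb
  let eqv : k ≃+* ι'.range := RingEquiv.ofBijective ι'.rangeRestrict
    ⟨fun a b hab => hι' (congrArg Subtype.val hab), ι'.rangeRestrict_surjective⟩
  refine ⟨(eqv.symm : ι'.range →+* k).comp (θ'.codRestrict ι'.range hrange), fun i => ?_⟩
  show eqv.symm (θ'.codRestrict ι'.range hrange (t i)) = c i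
  rw [RingEquiv.symm_apply_eq]
  exact Subtype.ext (hθ' i)

end Character

section Primitive

variable {O : Type*} [CommRing O] [IsDomain O] {Λ : Type*} [AddCommGroup Λ]

/-- Division of a character by `π`. -/
theorem exists_div_h841 {π : O} (hπ : π ≠ 0) (u : Λ →+ O) (h : ∀ x, π ∣ u x) :
    ∃ u' : Λ →+ O, u = π • u' := by
  classical
  choose v hv using h
  refine ⟨AddMonoidHom.mk' v (fun a b => ?_), ?_⟩
  · apply mul_left_cancel₀ hπ
    rw [← hv, map_add, hv a, hv b, mul_add]
  · refine AddMonoidHom.ext fun x => ?_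
    show u x = π • v x
    rw [hv x, smul_eq_mul]

/-- A nonzero character with values in a `π`-adically separated domain is `π ^ n` times a
character which is not divisible by `π`. -/
theorem exists_primitive_h841 {π : O} (hπ : π ≠ 0)
    (hsep : ∀ a : O, (∀ n : ℕ, π ^ n ∣ a) → a = 0) (u : Λ →+ O) (hu : u ≠ 0) :
    ∃ (n : ℕ) (u₀ : Λ →+ O), u = π ^ n • u₀ ∧ ∃ x, ¬ π ∣ u₀ x := by
  have key : ∀ v : ℕ, ∀ u : Λ →+ O, (∃ x₀, ¬ π ^ (v + 1) ∣ u x₀) →
      ∃ (n : ℕ) (u₀ : Λ →+ O), u = π ^ n • u₀ ∧ ∃ x, ¬ π ∣ u₀ x := by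
    intro v
    induction v with
    | zero =>
      rintro u ⟨x₀, hx₀⟩
      exact ⟨0, u, by rw [pow_zero, one_smul], x₀, by simpa using hx₀⟩
    | succ v ih =>
      rintro u ⟨x₀, hx₀⟩
      by_cases h : ∀ x, π ∣ u x
      · obtain ⟨u', rfl⟩ := exists_div_h841 hπ u h
        have h1 : ¬ π ^ (v + 1) ∣ u' x₀ := by
          intro hd
          apply hx₀
          rw [pow_succ', AddMonoidHom.smul_apply, smul_eq_mul]
          exact mul_dvd_mul_left π hd
        obtain ⟨n, u₀, hn, hx⟩ := ih u' ⟨x₀, h1⟩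
        exact ⟨n + 1, u₀, by rw [hn, pow_succ', mul_smul], hx⟩
      · push Not at h
        obtain ⟨x, hx⟩ := h
        exact ⟨0, u, by rw [pow_zero, one_smul], x, hx⟩
  obtain ⟨x₀, hx₀⟩ : ∃ x₀, u x₀ ≠ 0 := by
    by_contra h
    push Not at h
    exact hu (AddMonoidHom.ext h)
  have hv : ∃ v : ℕ, ¬ π ^ (v + 1) ∣ u x₀ := by
    by_contra h
    push Not at h
    apply hx₀
    apply hsep
    intro n
    rcases n with _ | n
    · rw [pow_zero]
      exact one_dvd _
    · exact h n
  obtain ⟨v, hv⟩ := hv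
  exact key v u ⟨x₀, hv⟩

end Primitive

section Sep

/-- Krull: a Noetherian local ring is separated for the topology of any element of its maximal
ideal. -/
theorem eq_zero_of_forall_pow_dvd_h841 {O : Type*} [CommRing O] [IsNoetherianRing O]
    [IsLocalRing O] {π : O} (hπ : π ∈ IsLocalRing.maximalIdeal O) (a : O)
    (h : ∀ n : ℕ, π ^ n ∣ a) : a = 0 := by
  have h1 : a ∈ ⨅ n : ℕ, (IsLocalRing.maximalIdeal O) ^ n := by
    rw [Ideal.mem_iInf]
    intro n
    obtain ⟨b, rfl⟩ := h n
    exact Ideal.mul_mem_right _ _ (Ideal.pow_mem_pow hπ n)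
  rw [Ideal.iInf_pow_eq_bot_of_isLocalRing _ Ideal.IsPrime.ne_top'] at h1
  exact h1

end Sep

end Fermat.Agent.S38.H841
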