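import Fermat.Agent.S38.H841.DictMin
import Fermat.Agent.S38.H719.CtrlMin

/-!
# HARD / HECKE, leaf DICT-MIN, adapter to CTRL-MIN (helper841)

`isPart_eq_zero_of_not_resModular_h841` : the hypothesis `hmin` of
`Fermat.Agent.S38.H719.eH_eq_zero_of_min` (the part "`T_l ≡ c_l`, `l ∈ Ipr`" of `Hom(Γ₀(N), 𝒪)`
vanishes) from (MIN) `¬ ResModular 𝒪 ρ̄ N S`, when `Ipr` contains the primes outside `S`.

`resModular_of_isPart_h841` : the direct form.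

Imports `S38/H719/CtrlMin.lean` (off-main, `origin/helper719`), hence `S59/H105` (`origin/helper105`).
-/

set_option autoImplicit false

namespace Fermat.Agent.S38.H841

open CongruenceSubgroup Polynomial IsLocalRing
open Fermat.Agent.S29.H642 Fermat.Agent.S59.H105 Fermat.Agent.S38.H719
open scoped MatrixGroups

section Part

variable (p : ℕ) [Fact p.Prime] (𝒪 : Type) [CommRing 𝒪] [IsDomain 𝒪]
  [IsDiscreteValuationRing 𝒪] [Finite (ResidueField 𝒪)] [CharZero 𝒪]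
  (ρbar : ResidualGaloisRep (ResidueField 𝒪))

/-- The `T`-half of `H719.IsPart` is the hypothesis `hnil` of `resModular_of_class_h841`. -/
theorem hnil_of_isPart_h841 {N : ℕ} {S : Finset ℕ} {ϖ : 𝒪} {c : ℕ → 𝒪} {Ipr Qs : Set ℕ}
    {α : ℕ → 𝒪} (hI : ∀ l : ℕ, l.Prime → l ∉ S → l ∈ Ipr)
    {y : Additive (Gamma0 N) →+ 𝒪} (hy : IsPart 𝒪 𝒪 ϖ Ipr c Qs α N y) :
    ∀ (l : ℕ) [Fact l.Prime] (hl : ¬ l ∣ N), l ∉ S → ∀ n : ℕ,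
      ∃ (m : ℕ) (z : Additive (Gamma0 N) →+ 𝒪),
        (fun x : Additive (Gamma0 N) →+ 𝒪 => heckeTransfer hl x - c l • x)^[m] y = ϖ ^ n • z :=
  fun l _ hl hlS n => hy.1 l hl (hI l Fact.out hlS) n

/-- **DICT-MIN in the vocabulary of CTRL-MIN**: a nonzero element of the part "`T_l ≡ c_l`" of
`Hom(Γ₀(N), 𝒪)` makes `ρ̄` modular of level `N`. -/
theorem resModular_of_isPart_h841 (hB : BdryShape_h841)
    (hp2 : p ≠ 2) (hp𝒪 : (p : 𝒪) ∈ maximalIdeal 𝒪)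
    (habs : ρbar.IsAbsolutelyIrreducible)
    (hsplit : ∀ σ : AlgebraicClosure ℚ ≃ₐ[ℚ] AlgebraicClosure ℚ,
      ∃ α β : ResidueField 𝒪, LinearMap.charpoly (ρbar.ρ σ) = (X - C α) * (X - C β))
    (N : ℕ) [NeZero N] (S : Finset ℕ) (hpS : p ∈ S)
    (hNS : ∀ q : ℕ, q.Prime → q ∣ N → q ∈ S)
    (ϖ : 𝒪) (hϖ : ϖ ∈ maximalIdeal 𝒪) (c : ℕ → 𝒪)
    (hc : ∀ (l : ℕ), l.Prime → l ∉ S →
      ∀ B : ValuationSubring Fermat.Agent.S31.Qb, B.LiesOverPrime l →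
        ∀ σ : Fermat.Agent.S31.GQ, B.IsFrobeniusAt σ l →
          LinearMap.charpoly (ρbar.ρ σ) =
            X ^ 2 - C (residue 𝒪 (c l)) * X + C ((l : ResidueField 𝒪)))
    (Ipr Qs : Set ℕ) (hI : ∀ l : ℕ, l.Prime → l ∉ S → l ∈ Ipr) (α : ℕ → 𝒪)
    (y : Additive (Gamma0 N) →+ 𝒪) (hy0 : y ≠ 0) (hy : IsPart 𝒪 𝒪 ϖ Ipr c Qs α N y) :
    Fermat.Agent.S59.Arch.ResModular 𝒪 ρbar N S :=
  resModular_of_class_h841 p 𝒪 ρbar hB hp2 hp𝒪 habs hsplit N S hpS hNS ϖ hϖ c hc y hy0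
    (hnil_of_isPart_h841 𝒪 hI hy)

/-- **(MIN) ⟹ `hmin` of `H719.eH_eq_zero_of_min`.** -/
theorem isPart_eq_zero_of_not_resModular_h841 (hB : BdryShape_h841)
    (hp2 : p ≠ 2) (hp𝒪 : (p : 𝒪) ∈ maximalIdeal 𝒪)
    (habs : ρbar.IsAbsolutelyIrreducible)
    (hsplit : ∀ σ : AlgebraicClosure ℚ ≃ₐ[ℚ] AlgebraicClosure ℚ,
      ∃ α β : ResidueField 𝒪, LinearMap.charpoly (ρbar.ρ σ) = (X - C α) * (X - C β))
    (N : ℕ) [NeZero N] (S : Finset ℕ) (hpS : p ∈ S)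
    (hNS : ∀ q : ℕ, q.Prime → q ∣ N → q ∈ S)
    (hmin : ¬ Fermat.Agent.S59.Arch.ResModular 𝒪 ρbar N S)
    (ϖ : 𝒪) (hϖ : ϖ ∈ maximalIdeal 𝒪) (c : ℕ → 𝒪)
    (hc : ∀ (l : ℕ), l.Prime → l ∉ S →
      ∀ B : ValuationSubring Fermat.Agent.S31.Qb, B.LiesOverPrime l →
        ∀ σ : Fermat.Agent.S31.GQ, B.IsFrobeniusAt σ l →
          LinearMap.charpoly (ρbar.ρ σ) =
            X ^ 2 - C (residue 𝒪 (c l)) * X + C ((l : ResidueField 𝒪)))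
    (Ipr : Set ℕ) (hI : ∀ l : ℕ, l.Prime → l ∉ S → l ∈ Ipr) (α : ℕ → 𝒪) :
    ∀ y : Additive (Gamma0 N) →+ 𝒪, IsPart 𝒪 𝒪 ϖ Ipr c ∅ α N y → y = 0 := by
  intro y hy
  by_contra hy0
  exact hmin (resModular_of_isPart_h841 p 𝒪 ρbar hB hp2 hp𝒪 habs hsplit N S hpS hNS ϖ hϖ c hc
    Ipr ∅ hI α y hy0 hy)

/-- The separation hypothesis `hsep` of `H719.eH_eq_zero_of_min`, for `ϖ` in the maximal ideal of
a discrete valuation ring. -/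
theorem hsep_h841 {ϖ : 𝒪} (hϖ : ϖ ∈ maximalIdeal 𝒪) :
    ∀ a : 𝒪, (∀ n : ℕ, ∃ z : 𝒪, a = ϖ ^ n • z) → a = 0 :=
  fun a h => eq_zero_of_forall_pow_dvd_h841 hϖ a fun n => by
    obtain ⟨z, hz⟩ := h n
    exact ⟨z, hz⟩

end Part

end Fermat.Agent.S38.H841
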